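import Mathlib
import Fermat.Agent.S22.Basic
import Fermat.Prelude.Thm_CongruenceSubgroup_one_mem_strictPeriods_Gamma0
import Fermat.Prelude.Thm_ModularForm_sturm_bound_Gamma0

/-!
# Galois descent along `Aut(ℂ)` (helper file for S23/S22)

* `Fermat.Agent.S23.exists_rat_of_forall_ringEquiv_fixed`: a complex number fixed by every ring
  automorphism of `ℂ` is rational.
* `Fermat.Agent.S23.span_rational_eq_of_stable`: a finite-dimensional subspace of `ι → ℂ` that is
  stable under coefficientwise ring automorphisms of `ℂ` is spanned by its rational vectors.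
-/

set_option autoImplicit false

namespace Fermat.Agent.S23

open MvPolynomial

/-- Extension lemma: an automorphism of the polynomial ring on a transcendence basis extends to
an automorphism of the algebraically closed field. -/
theorem exists_ringEquiv_extending {R K : Type*} [Field R] [Field K] [Algebra R K] [IsAlgClosed K]
    {ι : Type*} (v : ι → K) (hv : IsTranscendenceBasis R v)
    (φ : MvPolynomial ι R ≃+* MvPolynomial ι R) :
    ∃ σ : K ≃+* K, ∀ p : MvPolynomial ι R, σ (aeval v p) = aeval v (φ p) := by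
  have := IsAlgClosed.isAlgClosure_of_transcendence_basis v hv
  let e : Algebra.adjoin R (Set.range v) ≃+* Algebra.adjoin R (Set.range v) :=
    hv.1.aevalEquiv.symm.toRingEquiv.trans (φ.trans hv.1.aevalEquiv.toRingEquiv)
  refine ⟨IsAlgClosure.equivOfEquiv K K e, fun p => ?_⟩
  have h1 : aeval v p = algebraMap (Algebra.adjoin R (Set.range v)) K (hv.1.aevalEquiv p) :=
    (hv.1.algebraMap_aevalEquiv p).symm
  rw [h1, IsAlgClosure.equivOfEquiv_algebraMap]
  have h2 : e (hv.1.aevalEquiv p) = hv.1.aevalEquiv (φ p) := by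
    simp [e]
  rw [h2, hv.1.algebraMap_aevalEquiv]

/-- A transcendental element of an algebraically closed field is moved by some ring
automorphism. -/
theorem exists_ringEquiv_ne_of_transcendental {K₀ Ω : Type*} [Field K₀] [Field Ω] [Algebra K₀ Ω]
    [IsAlgClosed Ω] [CharZero Ω] {x : Ω} (hx : Transcendental K₀ x) :
    ∃ σ : Ω ≃+* Ω, σ x ≠ x := by
  classical
  have hs : AlgebraicIndepOn K₀ id ({x} : Set Ω) :=
    (algebraicIndependent_singleton_iff (⟨x, rfl⟩ : ({x} : Set Ω))).mpr hx
  obtain ⟨t, hst, ht⟩ := exists_isTranscendenceBasis_superset hs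
  let i0 : t := ⟨x, hst rfl⟩
  let c : t → K₀ := fun i => if i = i0 then 1 else 0
  let f : MvPolynomial t K₀ →ₐ[K₀] MvPolynomial t K₀ := aeval (fun i => X i + C (c i))
  let g : MvPolynomial t K₀ →ₐ[K₀] MvPolynomial t K₀ := aeval (fun i => X i - C (c i))
  let φ : MvPolynomial t K₀ ≃ₐ[K₀] MvPolynomial t K₀ :=
    AlgEquiv.ofAlgHom f g (by ext i; simp [f, g]) (by ext i; simp [f, g])
  obtain ⟨σ, hσ⟩ := exists_ringEquiv_extending _ ht φ.toRingEquiv
  refine ⟨σ, ?_⟩
  have h := hσ (X i0)
  have h1 : (aeval (fun i : t => (i : Ω)) (X i0 : MvPolynomial t K₀)) = x := by simp [i0]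
  have h2 : (aeval (fun i : t => (i : Ω)) (φ.toRingEquiv (X i0))) = x + 1 := by
    simp [φ, f, c, i0]
  rw [h1, h2] at h
  rw [h]
  simp

/-- An algebraic element of an algebraically closed field of characteristic zero, not in the
base field, is moved by some ring automorphism. -/
theorem exists_ringEquiv_ne_of_isAlgebraic {K₀ Ω : Type*} [Field K₀] [Field Ω] [Algebra K₀ Ω]
    [IsAlgClosed Ω] [CharZero K₀] {x : Ω} (hx : IsAlgebraic K₀ x)
    (hxr : ∀ r : K₀, x ≠ algebraMap K₀ Ω r) : ∃ σ : Ω ≃+* Ω, σ x ≠ x := by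
  classical
  have hclosure : IsAlgClosure K₀ (algebraicClosure K₀ Ω) := inferInstance
  have hclosed : IsAlgClosed (algebraicClosure K₀ Ω) := hclosure.isAlgClosed
  have hnormal : Normal K₀ (algebraicClosure K₀ Ω) := IsAlgClosure.normal _ _
  let xF : algebraicClosure K₀ Ω := ⟨x, (mem_algebraicClosure_iff).mpr hx⟩
  have hxF : xF ∉ (⊥ : Subalgebra K₀ (algebraicClosure K₀ Ω)) := by
    rintro ⟨r, hr⟩
    apply hxr r
    have := congrArg (fun a : algebraicClosure K₀ Ω => (a : Ω)) hr
    simpa [xF] using this.symm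
  have hsep : IsSeparable K₀ xF := Algebra.IsSeparable.isSeparable K₀ xF
  have hsplit : ((minpoly K₀ xF).map (algebraMap K₀ (algebraicClosure K₀ Ω))).Splits :=
    IsAlgClosed.splits _
  obtain ⟨y, hne, hy⟩ := (notMem_iff_exists_ne_and_isConjRoot hsep hsplit).mp hxF
  obtain ⟨τ, hτ⟩ := hy.symm.exists_algEquiv
  -- τ xF = y
  obtain ⟨ι, v, hv⟩ := exists_isTranscendenceBasis' (algebraicClosure K₀ Ω) Ω
  obtain ⟨σ, hσ⟩ := exists_ringEquiv_extending v hv (MvPolynomial.mapEquiv ι τ.toRingEquiv)
  refine ⟨σ, ?_⟩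
  have h := hσ (C xF)
  have h1 : aeval v (C xF : MvPolynomial ι (algebraicClosure K₀ Ω)) = x := by simp [xF]
  have h2 : aeval v ((MvPolynomial.mapEquiv ι τ.toRingEquiv) (C xF)) = (y : Ω) := by
    simp [hτ]
  rw [h1, h2] at h
  rw [h]
  intro hyx
  apply hne
  exact Subtype.ext hyx.symm

/-- A complex number fixed by every ring automorphism of `ℂ` is rational. -/
theorem exists_rat_of_forall_ringEquiv_fixed {x : ℂ} (hx : ∀ σ : ℂ ≃+* ℂ, σ x = x) :
    ∃ r : ℚ, x = (r : ℂ) := by
  by_contra hcon
  push Not at hcon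
  by_cases halg : IsAlgebraic ℚ x
  · obtain ⟨σ, hσ⟩ := exists_ringEquiv_ne_of_isAlgebraic halg (by simpa using hcon)
    exact hσ (hx σ)
  · obtain ⟨σ, hσ⟩ := exists_ringEquiv_ne_of_transcendental halg
    exact hσ (hx σ)

/-- Pivot lemma: a finite-dimensional subspace of `ι → ℂ` has a finite set `s` of coordinates and
a "reduced echelon" family `b` in `W` dual to these coordinates, such that a vector of `W`
vanishing at all coordinates in `s` is zero. -/
theorem exists_pivots {ι : Type*} (W : Submodule ℂ (ι → ℂ)) (hfd : FiniteDimensional ℂ W) :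
    ∃ (s : Finset ι) (b : ι → ι → ℂ),
      (∀ i ∈ s, b i ∈ W) ∧ (∀ i ∈ s, b i i = 1) ∧ (∀ i ∈ s, ∀ j ∈ s, i ≠ j → b i j = 0) ∧
      (∀ w ∈ W, (∀ i ∈ s, w i = 0) → w = 0) := by
  classical
  induction h : Module.finrank ℂ W using Nat.strong_induction_on generalizing W with
  | _ n ih =>
  by_cases hW : W = ⊥
  · subst hW
    exact ⟨∅, fun _ _ => 0, by simp, by simp, by simp, fun w hw _ => by simpa using hw⟩
  · obtain ⟨w0, hw0, hw0ne⟩ := Submodule.exists_mem_ne_zero_of_ne_bot hW
    obtain ⟨i0, hi0⟩ : ∃ i, w0 i ≠ 0 := by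
      by_contra hcon
      push Not at hcon
      exact hw0ne (funext hcon)
    let W' : Submodule ℂ (ι → ℂ) := W ⊓ LinearMap.ker (LinearMap.proj (R := ℂ) (φ := fun _ => ℂ) i0)
    have hle : W' ≤ W := inf_le_left
    have hlt : W' < W := by
      refine lt_of_le_of_ne hle fun heq => ?_
      have : w0 ∈ W' := heq ▸ hw0
      exact hi0 (by simpa [W'] using this.2)
    have hfd' : FiniteDimensional ℂ W' := Submodule.finiteDimensional_of_le hle
    have hfin : Module.finrank ℂ W' < n := h ▸ Submodule.finrank_lt_finrank_of_lt hlt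
    obtain ⟨s, b', hb', hδ1, hδ0, hsep⟩ := ih _ hfin W' hfd' rfl
    have hvan : ∀ w ∈ W', w i0 = 0 := fun w hw => by simpa [W'] using hw.2
    have hi0s : i0 ∉ s := by
      intro hmem
      have h1 := hδ1 i0 hmem
      have h2 := hvan _ (hb' i0 hmem)
      rw [h2] at h1
      exact zero_ne_one h1
    let u0 : ι → ℂ := (w0 i0)⁻¹ • w0
    have hu0 : u0 ∈ W := W.smul_mem _ hw0
    have hu0i : u0 i0 = 1 := by simp [u0, hi0]
    let u : ι → ℂ := u0 - ∑ a ∈ s, u0 a • b' a
    have hsumW' : ∑ a ∈ s, u0 a • b' a ∈ W' :=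
      W'.sum_mem fun a ha => W'.smul_mem _ (hb' a ha)
    have hu : u ∈ W := W.sub_mem hu0 (hle hsumW')
    have hui0 : u i0 = 1 := by
      have := hvan _ hsumW'
      simp [u, hu0i, this]
    have hus : ∀ j ∈ s, u j = 0 := by
      intro j hj
      have : (∑ a ∈ s, u0 a • b' a) j = u0 j := by
        rw [Finset.sum_apply]
        rw [Finset.sum_eq_single j]
        · simp [hδ1 j hj]
        · intro a ha haj
          simp [hδ0 a ha j hj haj]
        · intro hjn; exact absurd hj hjn
      simp [u, this]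
    refine ⟨insert i0 s, Function.update b' i0 u, ?_, ?_, ?_, ?_⟩
    · intro i hi
      by_cases hii : i = i0
      · subst hii; simpa using hu
      · have his : i ∈ s := (Finset.mem_insert.mp hi).resolve_left hii
        rw [Function.update_of_ne hii]
        exact hle (hb' i his)
    · intro i hi
      by_cases hii : i = i0
      · subst hii; simpa using hui0
      · have his : i ∈ s := (Finset.mem_insert.mp hi).resolve_left hii
        rw [Function.update_of_ne hii]
        exact hδ1 i his
    · intro i hi j hj hij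
      by_cases hii : i = i0
      · subst hii
        have hjs : j ∈ s := (Finset.mem_insert.mp hj).resolve_left (Ne.symm hij)
        simpa using hus j hjs
      · have his : i ∈ s := (Finset.mem_insert.mp hi).resolve_left hii
        rw [Function.update_of_ne hii]
        by_cases hjj : j = i0
        · subst hjj; exact hvan _ (hb' i his)
        · have hjs : j ∈ s := (Finset.mem_insert.mp hj).resolve_left hjj
          exact hδ0 i his j hjs hij
    · intro w hw hwz
      have hw' : w ∈ W' := ⟨hw, by simpa using hwz i0 (Finset.mem_insert_self _ _)⟩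
      exact hsep w hw' fun i hi => hwz i (Finset.mem_insert_of_mem hi)

/-- Galois descent: a finite-dimensional subspace of `ι → ℂ` stable under all coefficientwise
ring automorphisms of `ℂ` is spanned by its vectors with rational coordinates. -/
theorem span_rational_eq_of_stable {ι : Type*} (W : Submodule ℂ (ι → ℂ))
    [hfd : FiniteDimensional ℂ W]
    (hW : ∀ σ : ℂ ≃+* ℂ, ∀ w ∈ W, (fun i => σ (w i)) ∈ W) :
    Submodule.span ℂ {w | w ∈ W ∧ ∀ i, ∃ r : ℚ, w i = (r : ℂ)} = W := by
  classical
  apply le_antisymm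
  · exact Submodule.span_le.mpr fun w hw => hw.1
  · obtain ⟨s, b, hb, hδ1, hδ0, hsep⟩ := exists_pivots W hfd
    have hrat : ∀ i ∈ s, ∀ j, ∃ r : ℚ, b i j = (r : ℂ) := by
      intro i hi j
      apply exists_rat_of_forall_ringEquiv_fixed
      intro σ
      have hσW : (fun j => σ (b i j)) ∈ W := hW σ _ (hb i hi)
      have hdiff : (fun j => σ (b i j)) - b i ∈ W := W.sub_mem hσW (hb i hi)
      have hz := hsep _ hdiff (fun c hc => by
        simp only [Pi.sub_apply]
        by_cases hic : i = c
        · subst hic; simp [hδ1 i hi]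
        · simp [hδ0 i hi c hc hic])
      have := congrFun hz j
      simpa [sub_eq_zero] using this
    intro w hw
    have hz := hsep (w - ∑ a ∈ s, w a • b a)
      (W.sub_mem hw (W.sum_mem fun a ha => W.smul_mem _ (hb a ha))) (fun j hj => by
        have : (∑ a ∈ s, w a • b a) j = w j := by
          rw [Finset.sum_apply, Finset.sum_eq_single j]
          · simp [hδ1 j hj]
          · intro a ha haj
            simp [hδ0 a ha j hj haj]
          · intro hjn; exact absurd hj hjn
        simp [this])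
    have hweq : w = ∑ a ∈ s, w a • b a := sub_eq_zero.mp hz
    rw [hweq]
    exact Submodule.sum_mem _ fun a ha =>
      Submodule.smul_mem _ _ (Submodule.subset_span ⟨hb a ha, hrat a ha⟩)

section CuspFormDescent

open UpperHalfPlane ModularFormClass CongruenceSubgroup
open Fermat.Agent.S22

variable (N : ℕ) (k : ℤ)

theorem descent_one_mem_strictPeriods : (1 : ℝ) ∈ (G0 N).strictPeriods :=
  CongruenceSubgroup.one_mem_strictPeriods_Gamma0 N

/-- The `q`-expansion coefficient map on cusp forms, as a linear map. -/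
noncomputable def qCoeffLin : CuspForm (G0 N) k →ₗ[ℂ] (ℕ → ℂ) where
  toFun f n := (qExpansion 1 f).coeff n
  map_add' f g := by
    funext n
    simp only [Pi.add_apply, FunLike.coe_add]
    rw [ModularForm.qExpansion_add one_pos (descent_one_mem_strictPeriods N) f g, map_add]
  map_smul' c f := by
    funext n
    have h1 : ⇑(c • f) = c • ⇑f := by
      ext z
      simp
    simp only [h1, Pi.smul_apply, RingHom.id_apply]
    rw [ModularForm.qExpansion_smul one_pos (descent_one_mem_strictPeriods N) c f]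
    simp

@[simp] theorem qCoeffLin_apply (f : CuspForm (G0 N) k) (n : ℕ) :
    qCoeffLin N k f n = (qExpansion 1 f).coeff n := rfl

/-- Truncated coefficient map. -/
noncomputable def qCoeffTrunc (B : ℕ) : CuspForm (G0 N) k →ₗ[ℂ] (Fin (B + 1) → ℂ) :=
  (LinearMap.funLeft ℂ ℂ (fun i : Fin (B + 1) => (i : ℕ))).comp (qCoeffLin N k)

theorem qCoeffTrunc_injective [NeZero N] :
    Function.Injective (qCoeffTrunc N k ((k * (Gamma0 N).index).toNat / 12)) := by
  refine (injective_iff_map_eq_zero _).mpr fun f hf ↦ ?_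
  have hmf : (ModularFormClass.modularForm f : ModularForm (Gamma0 N) k) = 0 := by
    refine ModularForm.sturm_bound_Gamma0 N _ fun n hn ↦ ?_
    have := congrFun hf ⟨n, Nat.lt_succ_of_le hn⟩
    simpa [qCoeffTrunc, LinearMap.funLeft] using this
  have hcoe : (⇑f : ℍ → ℂ) = 0 := by
    have := congrArg (fun F : ModularForm (Gamma0 N) k ↦ (⇑F : ℍ → ℂ)) hmf
    simpa using this
  exact DFunLike.coe_injective (hcoe.trans FunLike.coe_zero.symm)

theorem qCoeffLin_injective [NeZero N] : Function.Injective (qCoeffLin N k) := by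
  intro f g hfg
  apply qCoeffTrunc_injective N k
  simp [qCoeffTrunc, hfg]

theorem finiteDimensional_cuspForm [NeZero N] : FiniteDimensional ℂ (CuspForm (G0 N) k) :=
  FiniteDimensional.of_injective _ (qCoeffTrunc_injective N k)

/-- Descent for cusp forms: if the space of cusp forms is stable under coefficientwise
conjugation by all automorphisms of `ℂ`, it is spanned by forms with rational `q`-expansion. -/
theorem cuspForm_mem_span_rat_of_conj (N : ℕ) [NeZero N] (k : ℤ)
    (hconj : ∀ (σ : ℂ ≃+* ℂ) (f : CuspForm (G0 N) k), ∃ g : CuspForm (G0 N) k,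
      ∀ n, (qExpansion 1 g).coeff n = σ ((qExpansion 1 f).coeff n))
    (f : CuspForm (G0 N) k) :
    f ∈ Submodule.span ℂ {g : CuspForm (G0 N) k | IsRatQ g} := by
  have hfd := finiteDimensional_cuspForm N k
  set W : Submodule ℂ (ℕ → ℂ) := LinearMap.range (qCoeffLin N k) with hWdef
  have hstab : ∀ σ : ℂ ≃+* ℂ, ∀ w ∈ W, (fun i => σ (w i)) ∈ W := by
    rintro σ _ ⟨f, rfl⟩
    obtain ⟨g, hg⟩ := hconj σ f
    exact ⟨g, funext fun n => by simpa using hg n⟩
  have hspan := span_rational_eq_of_stable W hstab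
  have hfW : qCoeffLin N k f ∈ Submodule.span ℂ {w | w ∈ W ∧ ∀ i, ∃ r : ℚ, w i = (r : ℂ)} := by
    rw [hspan]
    exact ⟨f, rfl⟩
  have hsub : {w | w ∈ W ∧ ∀ i, ∃ r : ℚ, w i = (r : ℂ)} ⊆
      (qCoeffLin N k) '' {g : CuspForm (G0 N) k | IsRatQ g} := by
    rintro w ⟨⟨g, rfl⟩, hr⟩
    exact ⟨g, fun n => hr n, rfl⟩
  have hmem : qCoeffLin N k f ∈
      (Submodule.span ℂ {g : CuspForm (G0 N) k | IsRatQ g}).map (qCoeffLin N k) := by
    rw [Submodule.map_span]
    exact Submodule.span_mono hsub hfW
  obtain ⟨f', hf', hff'⟩ := hmem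
  have := qCoeffLin_injective N k hff'
  rwa [← this]

end CuspFormDescent

end Fermat.Agent.S23
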